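import Fermat.Agent.LT.Top.Iface
import Fermat.Agent.LTG.K.Places
import Fermat.Agent.LTG.K.Frob
import Fermat.Agent.LTG.K.RamBase
import Fermat.Agent.LTG.Twist

/-!
# LTG: the interfaces between the pieces, and `LTCoreG` from `Desc_G` and `ThetaJ_G`
(clone of LT/Top/Iface for `OctaG`; helper47)
-/

set_option autoImplicit false

open NumberField IsDedekindDomain Matrix CongruenceSubgroup ModularFormClass
open Fermat.LT Fermat.Agent.LT.B Fermat.Agent.LT.D Fermat.Agent.LT.K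
open Fermat.Agent.LTG.K (OctaG)
open scoped MatrixGroups ModularForm

namespace Fermat.Agent.LT.Top

local notation "Γℚ" => (AlgebraicClosure ℚ ≃ₐ[ℚ] AlgebraicClosure ℚ)

variable (R : OctaG)

/-- the eigenvalues of the form on `K` at the places of degree one over which there is a place of
`L` of degree one -/
def Compat_G (D : Datum R.K) (lam : Pl R.K → ℝ) : Prop :=
  ∀ (v : Pl R.K) (w : Pl R.L), D.n v = 0 → Above v w → qv w = qv v → lam v = R.lam w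

/-- **Output of G** : the cuspidal form on `K = ℚ(ζ₃)`. -/
def Desc_G : Prop :=
  ∃ (D : Datum R.K) (M : ℕ) (lam : Pl R.K → ℝ) (Φ : X D → ℂ),
    M ≠ 0 ∧ LevelDvd D M ∧ EForm D lam Φ ∧ Compat_G R D lam

/-- **Output of J** (and of the non-vanishing of the Asai period, H5): the theta lift. -/
def ThetaJ_G : Prop :=
  ∀ (D : Datum R.K) (M : ℕ) (lam : Pl R.K → ℝ) (Φ : X D → ℂ), M ≠ 0 →
    LevelDvd D M → EForm D lam Φ → Compat_G R D lam →
    ∃ (f : CuspForm (Gamma1 (3 * M ^ 2)) 1) (T : Finset ℕ), f ≠ 0 ∧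
      (∀ γ ∈ Gamma0 (3 * M ^ 2), (⇑f ∣[(1 : ℤ)] γ) = ((chi3 (γ 1 1) : ℤ) : ℂ) • ⇑f) ∧
      ∀ p : ℕ, p.Prime → p ∉ T → ∀ v : Pl R.K, qv v = p →
        (∃ w : Pl R.L, Above v w ∧ qv w = qv v) →
        ∀ n : ℕ, qCoeff ⇑f (p * n) + (if p ∣ n then qCoeff ⇑f (n / p) else 0) =
          (lam v : ℂ) * qCoeff ⇑f n

theorem absNorm_und_G {H : Subgroup G3} {A : ValuationSubring (AlgebraicClosure ℚ)} {ℓ : ℕ}
    (hℓ : ℓ.Prime) (hA : A.LiesOverPrime ℓ) {σ : Γℚ} (hσ : A.IsFrobeniusAt σ ℓ)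
    (hQ : R.ρ σ ∈ H) : qv (R.und H (R.cen A) (R.cen_ne_bot hℓ hA)) = ℓ := by
  rw [qv, Ideal.absNorm_apply, Submodule.cardQuot_apply]
  exact_mod_cast R.card_und_cen hℓ hA hσ hQ

theorem above_und_G {P : Ideal (𝓞 R.N)} [P.IsPrime] (hP : P ≠ ⊥) :
    Above (R.und SLs P hP) (R.und Q8 P hP) := by
  intro x
  change algebraMap (𝓞 R.K) (𝓞 R.N) x ∈ P ↔
    algebraMap (𝓞 R.L) (𝓞 R.N) (algebraMap (𝓞 R.K) (𝓞 R.L) x) ∈ P
  rfl

/-- outside a finite set of primes the inertia groups in `Gal(N/ℚ)` are trivial -/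
theorem exists_finset_cen (R : OctaG) : ∃ B : Finset ℕ, ∀ p : ℕ, p.Prime → p ∉ B →
    ∀ A : ValuationSubring (AlgebraicClosure ℚ), A.LiesOverPrime p →
      (R.cen A).inertia Q8 = ⊥ := by
  obtain ⟨B, hB⟩ := LTG.exists_finset_unram R.ρ R.isOcta.cont
  refine ⟨B, fun p hp hpB A hA => ?_⟩
  rw [Subgroup.eq_bot_iff_forall]
  intro g hg
  have h1 : (g : G3) ∈ (R.cen A).inertia G3 := hg
  obtain ⟨σ, hσ, hσg⟩ := (R.mem_inertia_iff hp hA).mp h1
  rw [hB p hp hpB A hA σ hσ] at hσg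
  exact Subtype.ext hσg.symm

theorem ltCoreG_of (hD : ∀ R : OctaG, Desc_G R) (hJ : ∀ R : OctaG, ThetaJ_G R) :
    LTG.LTCoreG := by
  intro ρ hρ
  let R : OctaG := ⟨ρ, hρ⟩
  obtain ⟨D, M, lam, Φ, hM, hlev, hΦ, hc⟩ := hD R
  obtain ⟨f, T, hf, hchar, hrel⟩ := hJ R D M lam Φ hM hlev hΦ hc
  obtain ⟨B, hB⟩ := exists_finset_cen R
  -- the bad primes
  have hfin : {p : ℕ | ∃ v : Pl R.K, D.n v ≠ 0 ∧ qv v = p}.Finite := by
    refine (D.n_fin.image fun v => Ideal.absNorm v.asIdeal).subset ?_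
    rintro p ⟨v, hv, hp⟩
    refine ⟨v, hv, ?_⟩
    change (Ideal.absNorm v.asIdeal : ℝ) = p at hp
    exact_mod_cast hp
  refine ⟨3 * M ^ 2, f, T ∪ B ∪ hfin.toFinset, by positivity, Dvd.intro _ rfl, hf, hchar, ?_⟩
  intro p hp hpT A hA σ hσ hdet h4 n
  rw [Finset.mem_union, Finset.mem_union, Set.Finite.mem_toFinset] at hpT
  push Not at hpT
  obtain ⟨⟨hpT, hpB⟩, hpn⟩ := hpT
  have hQ : R.ρ σ ∈ Q8 := mem_Q8_iff.mpr ⟨hdet, h4⟩
  have hS : R.ρ σ ∈ SLs := Q8_le_SLs hQ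
  set v := R.und SLs (R.cen A) (R.cen_ne_bot hp hA) with hv
  set w := R.und Q8 (R.cen A) (R.cen_ne_bot hp hA) with hw
  have hqv : qv v = p := absNorm_und_G R hp hA hσ hS
  have hqw : qv w = p := absNorm_und_G R hp hA hσ hQ
  have hab : Above v w := above_und_G R (R.cen_ne_bot hp hA)
  have hn : D.n v = 0 := by
    by_contra hne
    exact hpn ⟨v, hne, hqv⟩
  have hI : (R.cen A).inertia Q8 = ⊥ := hB p hp hpB A hA
  have hlam : R.lam w = trQ (R.ρ σ) := R.lam_cen hp hA hI hσ hQ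
  have hrel' := hrel p hp hpT v hqv ⟨w, hab, by rw [hqw, hqv]⟩ n
  rw [hc v w hn hab (by rw [hqw, hqv]), hlam] at hrel'
  rw [hrel']
  norm_cast

end Fermat.Agent.LT.Top
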