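import Fermat.Agent.LT.Top.IfaceL
import Fermat.Agent.LTG.Top.Iface
import Fermat.Agent.LTG.Geo.Match
import Fermat.Agent.LT.Geo.EThree
import Fermat.Agent.LT.Geo.Ops
import Fermat.Agent.LT.CTree.Val

/-!
# LTG: the interfaces on the side of `L` : pieces I, H and G (clone of `LT/Top/IfaceL`)

* `IsLev_G R M D` : `D` has level `HT w M` at the places `w` of `L` which ramify in `R.N`, full level
  elsewhere (`M` is a depth parameter, the same in `PiL_G` and `UniqL_G`).
* `SType D M φ` : `φ` is in the image of the shell projector at the places with `D.n w ≠ 0`.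
* `PiL_G R` (piece I) : existence of `π_L`; `UniqL_G R` (piece H, (R2) and (R2')) : its uniqueness.
* `DescGeo_G` (piece G): the comparison of trace formulas, for an arbitrary comparison datum.
(helper23)
-/

set_option autoImplicit false

open NumberField IsDedekindDomain Matrix
open Fermat.LT Fermat.Agent.LT.B Fermat.Agent.LT.D Fermat.Agent.LT.K Fermat.Agent.LTG Fermat.Agent.LTG.K

namespace Fermat.Agent.LT.Top

variable (R : OctaG)

/-- level `HT w M` at the places of `L` which ramify in `R.N`, full level elsewhere -/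
structure IsLev_G (M : ℕ) (D : Datum R.L) : Prop where
  ram : ∀ w, (R.ab w).inertia Q8 ≠ ⊥ → D.H w = HT w M ∧ D.n w = max M 1
  unr : ∀ w, (R.ab w).inertia Q8 = ⊥ → D.n w = 0

/-- **Output of I.** The depth is divisible by `3`. -/
def PiL_G : Prop :=
  ∃ m : ℕ, 1 ≤ m ∧ ∀ D : Datum R.L, IsLev_G R (3 * m) D →
    ∃ φ : X D → ℂ, EForm D (fun w => (R.lam w : ℝ)) φ ∧ SType D (3 * m) φ

/-- **Output of H on `L`** ((R2), (R2')). -/
def UniqL_G : Prop :=
  ∀ (M : ℕ) (C : Cub R.K R.L) (D : Datum R.L), IsLev_G R M D →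
    ∀ φ₀ : X D → ℂ, EForm D (fun w => (R.lam w : ℝ)) φ₀ → SType D M φ₀ →
    ∀ (lam : Pl R.L → ℝ) (φ : X D → ℂ), EForm D lam φ → SType D M φ →
      (∀ w, pl C w ≠ w → D.n w = 0 → lam w = R.lam w) → ∃ c : ℂ, φ = c • φ₀

section geo

variable {K L : Type} [Field K] [NumberField K] [Field L] [NumberField L] [Algebra K L]

/-- The hypotheses of the comparison of trace formulas. -/
structure DescHyp_G {C : Cub K L} (G : GeoDat2 C) (M : ℕ) (lam : Pl L → ℝ)
    (φ : X G.DL.toDatum → ℂ) : Prop where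
  zeta : ∃ ζ : K, IsPrimitiveRoot ζ 3
  /-- the level on `L` : full, or `HT w M` at split places and at ramified places -/
  lev : ∀ w, G.DL.n w = 0 ∨ (G.DL.H w = HT w M ∧ (pl C w ≠ w ∨ Ram C (G.down w) w))
  depth : M = 3 * G.mb
  n_pl : ∀ w, G.DL.n (pl C w) = G.DL.n w
  /-- the level on `K` -/
  n_split : ∀ v, Split C v (G.up v) → G.U.n v = G.DL.n (G.up v)
  n_inert : ∀ v, Inert C v (G.up v) → G.U.n v = 0
  n_ram : ∀ v, Ram C v (G.up v) → G.U.n v ≠ 0
  form : EForm G.DL.toDatum lam φ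
  styp : SType G.DL.toDatum M φ
  uniq : ∀ (lam' : Pl L → ℝ) (φ' : X G.DL.toDatum → ℂ), EForm G.DL.toDatum lam' φ' →
    SType G.DL.toDatum M φ' → (∀ w, pl C w ≠ w → G.DL.n w = 0 → lam' w = lam w) →
    ∃ c : ℂ, φ' = c • φ
  lam_pl : ∀ w, G.DL.n w = 0 → lam (pl C w) = lam w
  lam_ram : ∀ v, Ram C v (G.up v) → G.DL.n (G.up v) = 0 → lam (G.up v) ≠ 0
  kill : KillL C G.DL.toDatum lam
  big : ∀ B : ℝ, ∃ u, Split C u (G.up u) ∧ G.DL.n (G.up u) = 0 ∧ B < qv u ∧ lam (G.up u) = 2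

/-- **Output of G.** -/
def DescGeo_G : Prop :=
  ∀ (K L : Type) [Field K] [NumberField K] [Field L] [NumberField L] [Algebra K L] (C : Cub K L)
    (G : GeoDat2 C) (M : ℕ) (lam : Pl L → ℝ) (φ : X G.DL.toDatum → ℂ), DescHyp_G G M lam φ →
    ∃ (lamK : Pl K → ℝ) (Φ : X G.DK → ℂ), EForm G.DK lamK Φ ∧
      ∀ v, Split C v (G.up v) → G.DL.n (G.up v) = 0 → lamK v = lam (G.up v)

end geo

end Fermat.Agent.LT.Top
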