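import Fermat.Agent.LTG.K.Frob
import Fermat.Agent.LT.Top.KillOcta

/-!
# LT: the killer element and the auxiliary primes for an octahedral representation

* `killL_octa` : `KillL C D R.lam` for every `D : Datum R.L`.
* `exists_big` : infinitely many places `w` of `L`, split over `K`, with `λ_w = 2`.
* `big_octa` : `DescHyp.big` (level nontrivial at the ramified places of `N/L`).
(helper84)
-/

set_option autoImplicit false

open NumberField IsDedekindDomain Matrix Filter Topology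
open Fermat.LT Fermat.Agent.LT.B Fermat.Agent.LT.D Fermat.Agent.LT.K Fermat.Agent.CFT
open Fermat.Agent.LT.CTree

namespace Fermat.Agent.LTG.Top

open Fermat.Agent.LT.K Fermat.Agent.LT.Top Fermat.Agent.LTG Fermat.Agent.LTG.K

section octa

variable (R : OctaG)

/-- the prime `ab w` as an element of the spectrum -/
noncomputable def abH (w : Pl R.L) : HeightOneSpectrum (𝓞 R.N) :=
  ⟨R.ab w, inferInstance, R.ab_ne_bot w⟩

theorem below_abH (w : Pl R.L) : Density.below R.L (abH R w) = w := by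
  apply HeightOneSpectrum.ext
  exact R.under_ab w

theorem mem_Z2_of_lam {w : Pl R.L} : R.fr w ∈ Z2.subgroupOf Q8 ↔ R.lam w ≠ 0 := by
  rw [Subgroup.mem_subgroupOf, mem_Z2, OctaG.lam, trQ]
  split_ifs with h1 h2
  · simp [h1]
  · simp [h2]
  · simp [h1, h2]

/-- **The killer element.** -/
theorem killL_octa (C : Cub R.K R.L) (D : Datum R.L) :
    KillL C D (fun w => (R.lam w : ℝ)) := by
  intro n hn hn2
  have := normal_sub
  set A : Set (Pl R.L) := {w | n w = 0 ∧ D.n w = 0 ∧ pl C w ≠ w ∧ R.lam w = 0} with hA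
  set B : Set (Pl R.L) := {w | n w = 0 ∧ D.n w = 0 ∧ pl C w ≠ w ∧ R.lam w ≠ 0} with hB
  have hdis : Disjoint A B := by
    rw [Set.disjoint_left]
    rintro w h1 h2
    exact h2.2.2.2 h1.2.2.2
  have hbad : ({w | n w ≠ 0} ∪ {w | D.n w ≠ 0} ∪
      {w : Pl R.L | pl C w = w ∧ (Ideal.absNorm w.asIdeal).Prime}).Finite :=
    (hn.union D.n_fin).union (finite_fix_prime C)
  obtain ⟨ϖ, S, h1, h2, h3, h4⟩ := KillGal.exists_killer_unit_gal (F := R.L) (N := R.N) Q8
    (Z2.subgroupOf Q8) (by rw [index_sub]; norm_num) hn hdis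
    (by
      rintro w (h | h)
      · exact h.1
      · exact h.1)
    hbad
    (by
      intro w hw
      by_contra hcon
      push Not at hcon
      obtain ⟨hw1, hw2⟩ := hcon
      have h5 : n w = 0 := by
        by_contra h
        exact hw1 (Or.inl (Or.inl h))
      have h6 : D.n w = 0 := by
        by_contra h
        exact hw1 (Or.inl (Or.inr h))
      have h7 : pl C w ≠ w := fun h => hw1 (Or.inr ⟨h, hw2⟩)
      apply hw
      by_cases h8 : R.lam w = 0
      · exact Or.inl ⟨h5, h6, h7, h8⟩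
      · exact Or.inr ⟨h5, h6, h7, h8⟩)
    (fun w hw => ⟨abH R w, below_abH R w, R.fr w,
      fun h => (mem_Z2_of_lam R).mp h hw.2.2.2, R.fr_spec w⟩)
    (fun w hw => ⟨abH R w, below_abH R w, R.fr w, (mem_Z2_of_lam R).mpr hw.2.2.2, R.fr_spec w⟩)
  refine ⟨ϖ, S, fun w hw => ?_, h2, h3, fun T hT => h4 T fun w => ?_⟩
  · have h5 : R.lam w = 2 ∨ R.lam w = -2 ∨ R.lam w = 0 := R.lam_eq_or w
    have h6 : ((R.lam w : ℝ) = 0 ∨ (R.lam w : ℝ) = 2 ∨ (R.lam w : ℝ) = -2) := by
      rcases h5 with h | h | h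
      · right; left; rw [h]; norm_num
      · right; right; rw [h]; norm_num
      · left; rw [h]; norm_num
    rcases h1 w hw with h | h
    · exact ⟨h.2.1, h.2.2.1, h6⟩
    · exact ⟨h.2.1, h.2.2.1, h6⟩
  · rw [hT]
    constructor
    · rintro ⟨hS, hl⟩
      refine ⟨hS, ?_⟩
      rcases h1 w hS with h | h
      · exact h
      · exact absurd (Int.cast_eq_zero.mp hl) h.2.2.2
    · rintro ⟨hS, hA⟩
      exact ⟨hS, Int.cast_eq_zero.mpr hA.2.2.2⟩

/-- **Auxiliary primes**: infinitely many places of degree one with trivial Frobenius. -/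
theorem exists_big (C : Cub R.K R.L) {bad : Set (Pl R.L)} (hbad : bad.Finite) (b : ℝ)
    (hI : ∀ w ∉ bad, (R.ab w).inertia Q8 = ⊥) :
    ∃ w : Pl R.L, w ∉ bad ∧ Split C (SUH.below R.K w) w ∧ b < qv w ∧ R.lam w = 2 := by
  have hfin : {w : Pl R.L | qv w ≤ b}.Finite := by
    have h1 : {I : Ideal (𝓞 R.L) | Ideal.absNorm I ≤ ⌊b⌋₊}.Finite :=
      Ideal.finite_setOfPred_absNorm_le _
    refine Set.Finite.of_injOn (f := fun w : Pl R.L => w.asIdeal) (fun w hw => ?_)
      (fun w _ w' _ h => HeightOneSpectrum.ext h) h1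
    exact Nat.le_floor hw
  have hd := KillGal.density_frobIn (K := R.L) (L := R.N) Q8 (⊥ : Subgroup Q8)
  have hidx : ((⊥ : Subgroup Q8).index : ℝ) = 8 := by
    rw [Subgroup.index_bot, card_Q8]; norm_num
  rw [hidx] at hd
  obtain ⟨w, hwT, hwB, hp⟩ := Density.exists_prime_of_density _ (by norm_num : (0 : ℝ) < 1 / 8) hd
    (bad ∪ {w : Pl R.L | qv w ≤ b} ∪
      {w : Pl R.L | pl C w = w ∧ (Ideal.absNorm w.asIdeal).Prime})
    ((hbad.union hfin).union (finite_fix_prime C))
  have h1 : w ∉ bad := fun h => hwB (Or.inl (Or.inl h))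
  have h2 : b < qv w := by
    by_contra h
    exact hwB (Or.inl (Or.inr (not_lt.mp h)))
  have h3 : pl C w ≠ w := fun h => hwB (Or.inr ⟨h, hp⟩)
  refine ⟨w, h1, ?_, h2, ?_⟩
  · rcases trichotomy C (above_below (K := R.K) w) with h | h | h
    · exact h
    · exact absurd h.fix h3
    · exact absurd h.fix h3
  · obtain ⟨σ, hσ, hF⟩ := KillGal.mem_frobIn_of Q8 (⊥ : Subgroup Q8) hwT (below_abH R w)
    rw [Subgroup.mem_bot] at hσ
    subst hσ
    rw [R.lam_eq w (R.ab w) (R.under_ab w) (hI w h1) hF]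
    simp [trQ]

end octa

end Fermat.Agent.LTG.Top
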