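import Fermat.Agent.LTG.Top.KillOcta
import Fermat.Agent.LTG.Geo.Match

/-!
# LTG: the auxiliary primes for an octahedral representation (`DescHyp_G.big`)

Clone of `LT/Top/KillOcta.big_octa` for `GeoDat2`.
-/

set_option autoImplicit false

open NumberField IsDedekindDomain Matrix Filter Topology
open Fermat.LT Fermat.Agent.LT.B Fermat.Agent.LT.D Fermat.Agent.LT.K Fermat.Agent.CFT
open Fermat.Agent.LT.CTree

namespace Fermat.Agent.LTG.Top

open Fermat.Agent.LT.K Fermat.Agent.LT.Top Fermat.Agent.LTG Fermat.Agent.LTG.K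

variable (R : OctaG)

/-- `DescHyp.big` -/
theorem big_octa_G {C : Cub R.K R.L} (G : GeoDat2 C)
    (hG : ∀ w, (R.ab w).inertia Q8 ≠ ⊥ → G.DL.n w ≠ 0)
    (hlam : ∀ w, G.DL.n w = 0 → R.lam (pl C w) = R.lam w) (b : ℝ) :
    ∃ u, Split C u (G.up u) ∧ G.DL.n (G.up u) = 0 ∧ b < qv u ∧
      (R.lam (G.up u) : ℝ) = 2 := by
  set bad : Set (Pl R.L) := {w | G.DL.n w ≠ 0} ∪ {w | G.DL.n (pl C w) ≠ 0} ∪
    {w | G.DL.n (pl C (pl C w)) ≠ 0} with hbad
  have hfin : bad.Finite := by
    refine (G.DL.n_fin.union ?_).union ?_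
    · exact G.DL.n_fin.preimage ((pl C).injective.injOn)
    · exact G.DL.n_fin.preimage (((pl C).injective.comp (pl C).injective).injOn)
  have hI : ∀ w ∉ bad, (R.ab w).inertia Q8 = ⊥ := by
    intro w hw
    by_contra h
    apply hw
    refine Or.inl (Or.inl ?_)
    exact hG w h
  obtain ⟨w, hw, hs, hb, h2⟩ := exists_big R C hfin b hI
  have hn : G.DL.n w = 0 ∧ G.DL.n (pl C w) = 0 ∧ G.DL.n (pl C (pl C w)) = 0 := by
    refine ⟨?_, ?_, ?_⟩
    · by_contra h; exact hw (Or.inl (Or.inl h))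
    · by_contra h; exact hw (Or.inl (Or.inr h))
    · by_contra h; exact hw (Or.inr h)
  set v := SUH.below R.K w with hv
  have hdown : G.down w = v := ((above_iff _ _).mp (G.above w)).symm
  have hsp : Split C v (G.up v) := by
    rcases G.typ v with h | h | h
    · exact h
    · exact absurd h hs.not_inert
    · exact absurd h hs.not_ram
  have hcube := TwDatum.pl_cube (C := C)
  refine ⟨v, hsp, ?_⟩
  have hup := G.up_down w
  rw [hdown] at hup
  rcases hup with h | h | h
  · rw [← h]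
    exact ⟨hn.1, by rw [← hs.q_eq]; exact hb, by rw [h2]; norm_num⟩
  · have h3 : pl C (pl C w) = G.up v := by rw [h, hcube]
    rw [← h3]
    refine ⟨hn.2.2, by rw [← hs.q_eq]; exact hb, ?_⟩
    rw [hlam _ hn.2.1, hlam _ hn.1, h2]
    norm_num
  · have h3 : pl C w = G.up v := by
      rw [h]
      exact hcube _
    rw [← h3]
    refine ⟨hn.2.1, by rw [← hs.q_eq]; exact hb, ?_⟩
    rw [hlam _ hn.1, h2]
    norm_num


end Fermat.Agent.LTG.Top
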