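import Fermat.Agent.LT.Top.Tower
import Fermat.Agent.LTG.K.Local

/-!
# LTG, top level: the cyclic cubic extension `R.L / R.K` as a `Cub`, general case
(helper24)
-/

set_option autoImplicit false
set_option linter.unusedSectionVars false

open NumberField IsDedekindDomain Matrix Module Pointwise
open Fermat.Agent.LT.D Fermat.Agent.CFT Fermat.Agent.LT.K Fermat.Agent.LTG

namespace Fermat.Agent.LTG.K.OctaG

open Fermat.LT Fermat.LT.Top

variable (R : OctaG)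

/-- the cubic extension `L / K` -/
noncomputable def cub : Cub R.K R.L := (exists_cub R.K R.L R.card_gal_KL).some

/-- an embedding `L → ℂ` -/
noncomputable def phi : R.L →+* ℂ :=
  ((IsAlgClosed.lift (R := ℚ) (S := AlgebraicClosure ℚ) (M := ℂ)).toRingHom).comp
    (algebraMap R.L (AlgebraicClosure ℚ))

theorem phi_K : ¬ ComplexEmbedding.IsReal (R.phi.comp (algebraMap R.K R.L)) := by
  intro h
  have h1 := InfinitePlace.not_isComplex_iff_isReal.mpr (InfinitePlace.isReal_mk_iff.mpr h)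
  exact h1 (IsTotallyComplex.isComplex _)

/-! ### lifting automorphisms of `L / K` -/

theorem exists_lift (τ : R.L ≃ₐ[R.K] R.L) :
    ∃ g ∈ SLs, ∀ x : R.L, g • algebraMap R.L R.N x = algebraMap R.L R.N (τ x) := by
  let T : R.N ≃ₐ[R.K] R.N := τ.liftNormal R.N
  have hT : ∀ x : R.L, T (algebraMap R.L R.N x) = algebraMap R.L R.N (τ x) :=
    fun x => τ.liftNormal_commutes R.N x
  let T' : R.N ≃ₐ[ℚ] R.N := T.restrictScalars ℚ
  have hsmul : ∀ x : R.N, R.galN T' • x = T x := by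
    intro x
    rw [R.smul_def, MulEquiv.symm_apply_apply]
    rfl
  refine ⟨R.galN T', ?_, fun x => by rw [hsmul, hT]⟩
  obtain ⟨σ, hσ⟩ := R.isOcta.surj (R.galN T')
  rw [← hσ, ← R.fixes_iff]
  intro x hx
  have h1 := R.coe_ρ_smul σ (algebraMap R.K R.N ⟨x, hx⟩)
  rw [hσ, hsmul, T.commutes] at h1
  exact h1.symm

theorem not_mem_Q8_of_lift {g : G3} (hg : ∀ x : R.L, g • algebraMap R.L R.N x =
    algebraMap R.L R.N (R.cub.σ x)) : g ∉ Q8 := by
  intro h
  obtain ⟨x, hx⟩ := R.cub.ne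
  apply hx
  apply (algebraMap R.L R.N).injective
  rw [← hg]
  obtain ⟨σ, rfl⟩ := R.isOcta.surj g
  apply Subtype.ext
  rw [R.coe_ρ_smul]
  exact R.apply_eq h x.2

theorem lift_int {g : G3} (hg : ∀ x : R.L, g • algebraMap R.L R.N x =
    algebraMap R.L R.N (R.cub.σ x)) (x : 𝓞 R.L) : g • algebraMap (𝓞 R.L) (𝓞 R.N) x =
    algebraMap (𝓞 R.L) (𝓞 R.N) (RingOfIntegers.mapRingEquiv (R.cub.σ : R.L ≃+* R.L) x) := by
  apply RingOfIntegers.ext
  exact hg (x : R.L)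

/-- a lift of `σ` moves primes above `w` to primes above `σ w` -/
theorem under_smul_lift {g : G3} (hg : ∀ x : R.L, g • algebraMap R.L R.N x =
    algebraMap R.L R.N (R.cub.σ x)) (w : Pl R.L) :
    (g • R.ab w).under (𝓞 R.L) = (pl R.cub w).asIdeal := by
  ext x
  obtain ⟨y, rfl⟩ := (RingOfIntegers.mapRingEquiv (R.cub.σ : R.L ≃+* R.L)).surjective x
  rw [Ideal.mem_comap, ← R.lift_int hg, Ideal.smul_mem_pointwise_smul_iff]
  rw [show (RingOfIntegers.mapRingEquiv (R.cub.σ : R.L ≃+* R.L)) y ∈ (pl R.cub w).asIdeal ↔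
    y ∈ w.asIdeal from mem_plEquiv _ w y, ← R.under_ab w, Ideal.mem_comap]

theorem exists_stab_of_fix {w : Pl R.L} (h : pl R.cub w = w) : ∃ g ∈ SLs, g ∉ Q8 ∧
    g • R.ab w = R.ab w ∧ ∀ x : R.L, g • algebraMap R.L R.N x =
    algebraMap R.L R.N (R.cub.σ x) := by
  obtain ⟨g, hgS, hg⟩ := R.exists_lift R.cub.σ
  have h1 := R.under_smul_lift hg w
  rw [h] at h1
  obtain ⟨q, hq⟩ := R.exists_smul_ab w (g • R.ab w) h1
  have hlift : ∀ x : R.L, ((q : G3)⁻¹ * g) • algebraMap R.L R.N x =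
      algebraMap R.L R.N (R.cub.σ x) := by
    intro x
    rw [mul_smul, hg]
    obtain ⟨σ, hσ⟩ := R.isOcta.surj (q : G3)⁻¹
    rw [← hσ]
    apply Subtype.ext
    rw [R.coe_ρ_smul]
    exact R.apply_eq (by rw [hσ]; exact inv_mem q.2) (R.cub.σ x).2
  refine ⟨(q : G3)⁻¹ * g, mul_mem (inv_mem (Q8_le_SLs q.2)) hgS, R.not_mem_Q8_of_lift hlift, ?_,
    hlift⟩
  rw [mul_smul, hq]
  exact inv_smul_smul (q : G3) (R.ab w)

theorem mem_w_iff {w : Pl R.L} (x : 𝓞 R.L) : algebraMap (𝓞 R.L) (𝓞 R.N) x ∈ R.ab w ↔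
    x ∈ w.asIdeal := by
  rw [← R.under_ab w, Ideal.mem_comap]

/-- ramified in the sense of `Ram` implies ramified in the sense of inertia groups -/
theorem exists_inertia_of_ram {v : Pl R.K} {w : Pl R.L} (h : Ram R.cub v w) :
    ∃ g ∈ (R.ab w).inertia G3, g ∈ SLs ∧ g ∉ Q8 := by
  obtain ⟨g, hgS, hgQ, hgP, hg⟩ := R.exists_stab_of_fix h.fix
  refine R.exists_inertia_of_triv hgP hgS hgQ fun x => ?_
  rw [R.lift_int hg, ← map_sub, R.mem_w_iff]
  have h1 := h.inertia (x := (x : R.L)) (E.av_int_le_one w x)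
  rw [← E.av_int_lt_one_iff]
  exact h1

/-- elements of `Q8` act trivially on `L` -/
theorem smul_L_of_mem {q : G3} (hq : q ∈ Q8) (x : R.L) :
    q • algebraMap R.L R.N x = algebraMap R.L R.N x := by
  obtain ⟨σ, rfl⟩ := R.isOcta.surj q
  apply Subtype.ext
  rw [R.coe_ρ_smul]
  exact R.apply_eq hq x.2

/-- if `w` is fixed and `L / K` is ramified in the sense of inertia groups then `σ` is induced by
an element of the inertia group -/
theorem exists_inertia_lift {w : Pl R.L} (h : pl R.cub w = w) {g' : G3}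
    (hg' : g' ∈ (R.ab w).inertia G3) (hgS : g' ∈ SLs) (hgQ : g' ∉ Q8) :
    ∃ g ∈ (R.ab w).inertia G3, ∀ x : R.L, g • algebraMap R.L R.N x =
      algebraMap R.L R.N (R.cub.σ x) := by
  obtain ⟨g, hS, hQ, -, hg⟩ := R.exists_stab_of_fix h
  rcases coset_Q8 hS hQ hgS hgQ with h1 | h1
  · refine ⟨g', hg', fun x => ?_⟩
    rw [show g' = g * (g⁻¹ * g') by group, mul_smul, R.smul_L_of_mem h1, hg]
  · refine ⟨g' * g', mul_mem hg' hg', fun x => ?_⟩
    rw [show g' * g' = g * (g⁻¹ * g' * g') by group, mul_smul, R.smul_L_of_mem h1, hg]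

/-- ramified in the sense of inertia groups implies `Ram` -/
theorem ram_of_inertia {v : Pl R.K} {w : Pl R.L} (hv : Above v w) (h : pl R.cub w = w) {g' : G3}
    (hg' : g' ∈ (R.ab w).inertia G3) (hgS : g' ∈ SLs) (hgQ : g' ∉ Q8) : Ram R.cub v w := by
  rcases trichotomy R.cub hv with h1 | h1 | h1
  · exact absurd h h1.ne
  · exfalso
    obtain ⟨θ, hθ, hθ1⟩ := h1.gen
    obtain ⟨a, ha⟩ := E.exists_int_approx w hθ (r := 2⁻¹) (by norm_num)
    obtain ⟨g, hgI, hg⟩ := R.exists_inertia_lift h hg' hgS hgQ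
    have h2 := hgI (algebraMap (𝓞 R.L) (𝓞 R.N) a)
    change g • algebraMap (𝓞 R.L) (𝓞 R.N) a - algebraMap (𝓞 R.L) (𝓞 R.N) a ∈ R.ab w at h2
    rw [R.lift_int hg, ← map_sub, R.mem_w_iff, ← E.av_int_lt_one_iff] at h2
    have h3 : av w (R.cub.σ (a : R.L) - (a : R.L)) < 1 := h2
    have h4 : av w (θ - (a : R.L)) < 1 := ha.trans_lt (by norm_num)
    have e : R.cub.σ θ - θ = (R.cub.σ (θ - (a : R.L)) - (θ - (a : R.L))) +
        (R.cub.σ (a : R.L) - (a : R.L)) := by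
      rw [map_sub]; ring
    have h5 : av w (R.cub.σ θ - θ) < 1 := by
      rw [e]
      refine (av_add_le w _ _).trans_lt (max_lt ?_ h3)
      refine (E.av_sub_le w _ _).trans_lt (max_lt ?_ h4)
      rwa [av_σ_of_fix R.cub h]
    exact absurd hθ1 h5.ne
  · exact h1

theorem mem_v_iff {v : Pl R.K} {w : Pl R.L} (hv : Above v w) (x : 𝓞 R.K) :
    algebraMap (𝓞 R.L) (𝓞 R.N) (algebraMap (𝓞 R.K) (𝓞 R.L) x) ∈ R.ab w ↔ x ∈ v.asIdeal := by
  rw [R.mem_w_iff]
  exact (hv x).symm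

/-- the residue field at the place above `2` has four elements -/
theorem qv_of_two {v : Pl R.K} (h : (2 : 𝓞 R.K) ∈ v.asIdeal) : qv v = 4 := by
  have hfin : Finite (𝓞 R.K ⧸ v.asIdeal) := Ideal.finiteQuotientOfFreeOfNeBot _ v.ne_bot
  let _ : Field (𝓞 R.K ⧸ v.asIdeal) := Ideal.Quotient.field v.asIdeal
  -- the norm divides four
  have h1 : Ideal.absNorm v.asIdeal ∣ 4 := by
    have h2 : v.asIdeal ∣ Ideal.span {(2 : 𝓞 R.K)} := by
      rw [Ideal.dvd_span_singleton]; exact h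
    have h3 := map_dvd Ideal.absNorm h2
    have h4 : Ideal.absNorm (Ideal.span {(2 : 𝓞 R.K)}) = 4 := by
      rw [Ideal.absNorm_span_singleton]
      have h5 : Algebra.norm ℤ (2 : 𝓞 R.K) = 2 ^ finrank ℤ (𝓞 R.K) := by
        have := Algebra.norm_algebraMap (R := ℤ) (S := 𝓞 R.K) (2 : ℤ)
        rwa [map_ofNat] at this
      rw [h5, RingOfIntegers.rank, R.finrank_K]
      rfl
    rwa [h4] at h3
  -- a primitive cube root of unity
  obtain ⟨z, hz⟩ : ∃ z : 𝓞 R.K, z ^ 2 + z + 1 = 0 := by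
    refine ⟨R.zeta_spec.toInteger, ?_⟩
    apply RingOfIntegers.ext
    change R.zeta ^ 2 + R.zeta + 1 = 0
    have h6 : (R.zeta - 1) * (R.zeta ^ 2 + R.zeta + 1) = 0 := by
      have := R.zeta_spec.pow_eq_one
      linear_combination this
    exact (mul_eq_zero.mp h6).resolve_left (sub_ne_zero.mpr (R.zeta_spec.ne_one (by norm_num)))
  set ζ : 𝓞 R.K ⧸ v.asIdeal := Ideal.Quotient.mk v.asIdeal z with hζ
  have h2' : (2 : 𝓞 R.K ⧸ v.asIdeal) = 0 := by
    have := Ideal.Quotient.eq_zero_iff_mem.mpr h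
    rwa [map_ofNat] at this
  have hζ3 : ζ ^ 2 + ζ + 1 = 0 := by
    rw [hζ, ← map_pow, ← map_add, ← map_one (Ideal.Quotient.mk v.asIdeal), ← map_add, hz, map_zero]
  have hζ1 : ζ ≠ 1 := by
    intro h7
    rw [h7] at hζ3
    have : (1 : 𝓞 R.K ⧸ v.asIdeal) = 0 := by linear_combination hζ3 - h2'
    exact one_ne_zero this
  have hζ0 : ζ ≠ 0 := by
    intro h7
    rw [h7] at hζ3
    have : (1 : 𝓞 R.K ⧸ v.asIdeal) = 0 := by linear_combination hζ3
    exact one_ne_zero this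
  have hord : orderOf (Units.mk0 ζ hζ0) = 3 := by
    refine orderOf_eq_prime ?_ ?_
    · apply Units.ext
      change ζ ^ 3 = 1
      linear_combination (ζ - 1) * hζ3
    · intro h8
      exact hζ1 (congrArg Units.val h8)
  have hdvd : 3 ∣ Ideal.absNorm v.asIdeal - 1 := by
    rw [← hord, Ideal.absNorm_apply, Submodule.cardQuot_apply, ← Nat.card_units]
    exact orderOf_dvd_natCard _
  have h9 : Ideal.absNorm v.asIdeal ≠ 1 := by
    rw [Ne, Ideal.absNorm_eq_one_iff]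
    exact v.isPrime.ne_top
  have h10 : Ideal.absNorm v.asIdeal = 4 := by
    have h11 := Nat.le_of_dvd (by norm_num) h1
    interval_cases Ideal.absNorm v.asIdeal <;> omega
  rw [qv, h10]
  norm_num

theorem two_mem_of {v : Pl R.K} {w : Pl R.L} (hv : Above v w) (h : (2 : 𝓞 R.N) ∈ R.ab w) :
    (2 : 𝓞 R.K) ∈ v.asIdeal := by
  rw [← R.mem_v_iff hv, map_ofNat, map_ofNat]
  exact h

/-- **The places of `L` fixed by `σ`**: either `N / L` is unramified, or the residue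
characteristic is two, `L / K` is ramified and the residue field has four elements. -/
theorem inertia_Q8_or_of_fix {v : Pl R.K} {w : Pl R.L} (hv : Above v w)
    (h : pl R.cub w = w) : (R.ab w).inertia Q8 = ⊥ ∨
      ((2 : 𝓞 R.K) ∈ v.asIdeal ∧ qv v = 4 ∧ Ram R.cub v w) := by
  obtain ⟨g, hgS, hgQ, hgP, -⟩ := R.exists_stab_of_fix h
  by_cases h3 : (3 : 𝓞 R.N) ∈ R.ab w
  · exact Or.inl (R.inertia_Q8_of_stab_three (R.ab_ne_bot w) h3 hgP hgS hgQ)
  · by_cases h2 : (2 : 𝓞 R.N) ∈ R.ab w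
    · right
      obtain ⟨g', h1, hS, hQ⟩ := R.exists_inertia_of_two (R.ab_ne_bot w) h2 hgP hgS hgQ
      have h5 := R.two_mem_of hv h2
      exact ⟨h5, R.qv_of_two h5, R.ram_of_inertia hv h h1 hS hQ⟩
    · exact Or.inl (R.inertia_Q8_of_stab_five (R.ab_ne_bot w) h2 h3 hgP hgS hgQ)

/-- **The eigenvalue at a ramified place of `L / K`, unramified in `N / L`, is `±2`.** -/
theorem lam_ram {v : Pl R.K} {w : Pl R.L} (h : Ram R.cub v w) (hI : (R.ab w).inertia Q8 = ⊥) :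
    R.lam w = 2 ∨ R.lam w = -2 := by
  obtain ⟨g, hg, hgS, hgQ⟩ := R.exists_inertia_of_ram h
  exact R.lam_of_mem_Z2 (R.mem_Z2_of_ram (R.ab_ne_bot w) (Or.inr hI) hg hgS hgQ (R.fr w).2
    (R.fr_smul w))

/-- inertia groups at the primes above `σ w` -/
theorem inertia_Q8_pl {w : Pl R.L} (h : (R.ab w).inertia Q8 = ⊥) :
    (R.ab (pl R.cub w)).inertia Q8 = ⊥ := by
  obtain ⟨g, hgS, hg⟩ := R.exists_lift R.cub.σ
  obtain ⟨q, hq⟩ := R.exists_smul_ab (pl R.cub w) (g • R.ab w) (R.under_smul_lift hg w)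
  rw [Subgroup.eq_bot_iff_forall] at h ⊢
  intro x hx
  have hxI : (x : G3) ∈ (R.ab (pl R.cub w)).inertia G3 := hx
  set y : G3 := g⁻¹ * q with hy
  have hyP : y • R.ab (pl R.cub w) = R.ab w := by
    rw [hy, mul_smul]
    have : (q : G3) • R.ab (pl R.cub w) = g • R.ab w := hq.symm
    rw [this, inv_smul_smul]
  have h1 : y * x * y⁻¹ ∈ (R.ab w).inertia G3 := by
    intro z
    change (y * x * y⁻¹) • z - z ∈ R.ab w
    rw [← hyP, Ideal.mem_pointwise_smul_iff_inv_smul_mem]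
    have h4 := hxI (y⁻¹ • z)
    change (x : G3) • y⁻¹ • z - y⁻¹ • z ∈ R.ab (pl R.cub w) at h4
    have e : y⁻¹ • ((y * x * y⁻¹) • z - z) = (x : G3) • y⁻¹ • z - y⁻¹ • z := by
      rw [smul_sub, ← mul_smul, ← mul_smul]
      congr 2
      group
    rw [e]
    exact h4
  have h2 : y * x * y⁻¹ ∈ Q8 := (inferInstance : Q8.Normal).conj_mem _ x.2 y
  have h3 := congrArg Subtype.val (h ⟨_, h2⟩ h1)
  change y * x * y⁻¹ = 1 at h3
  rw [mul_inv_eq_one, mul_eq_left] at h3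
  exact Subtype.ext h3

/-- **The eigenvalues are invariant under `σ`.** -/
theorem lam_pl {w : Pl R.L} (h : (R.ab w).inertia Q8 = ⊥) :
    R.lam (pl R.cub w) = R.lam w := by
  obtain ⟨g, hgS, hg⟩ := R.exists_lift R.cub.σ
  have hu := R.under_smul_lift hg w
  have hP : (g • R.ab w).IsPrime := inferInstance
  -- inertia
  have hI : (g • R.ab w).inertia Q8 = ⊥ := by
    rw [Subgroup.eq_bot_iff_forall] at h ⊢
    intro x hx
    have hxI : (x : G3) ∈ (g • R.ab w).inertia G3 := hx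
    have h1 : g⁻¹ * x * g⁻¹⁻¹ ∈ (R.ab w).inertia G3 := by
      intro z
      change (g⁻¹ * x * g⁻¹⁻¹) • z - z ∈ R.ab w
      have h4 := hxI (g • z)
      change (x : G3) • g • z - g • z ∈ g • R.ab w at h4
      rw [Ideal.mem_pointwise_smul_iff_inv_smul_mem] at h4
      have e : g⁻¹ • ((x : G3) • g • z - g • z) = (g⁻¹ * x * g⁻¹⁻¹) • z - z := by
        rw [smul_sub, inv_smul_smul, inv_inv, mul_smul, mul_smul]
      rwa [e] at h4
    have h2 : g⁻¹ * x * g⁻¹⁻¹ ∈ Q8 := (inferInstance : Q8.Normal).conj_mem _ x.2 g⁻¹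
    have h3 := congrArg Subtype.val (h ⟨_, h2⟩ h1)
    change g⁻¹ * x * g⁻¹⁻¹ = 1 at h3
    rw [mul_inv_eq_one, mul_eq_left] at h3
    exact Subtype.ext h3
  have hQ : g * (R.fr w : G3) * g⁻¹ ∈ Q8 := (inferInstance : Q8.Normal).conj_mem _ (R.fr w).2 g
  have hcard : Nat.card (𝓞 R.L ⧸ (g • R.ab w).under (𝓞 R.L)) =
      Nat.card (𝓞 R.L ⧸ (R.ab w).under (𝓞 R.L)) := by
    rw [hu, R.under_ab w]
    have h1 := qv_pl R.cub w
    rw [qv, qv, Ideal.absNorm_apply, Ideal.absNorm_apply, Submodule.cardQuot_apply,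
      Submodule.cardQuot_apply] at h1
    exact_mod_cast h1
  have hF : IsArithFrobAt (𝓞 R.L) (⟨_, hQ⟩ : Q8) (g • R.ab w) := by
    intro z
    rw [hcard]
    have h1 := R.fr_spec w (g⁻¹ • z)
    change (R.fr w : G3) • g⁻¹ • z - (g⁻¹ • z) ^ _ ∈ R.ab w at h1
    change (g * (R.fr w : G3) * g⁻¹) • z - z ^ _ ∈ g • R.ab w
    rw [Ideal.mem_pointwise_smul_iff_inv_smul_mem]
    have e : g⁻¹ • ((g * (R.fr w : G3) * g⁻¹) • z -
        z ^ Nat.card (𝓞 R.L ⧸ (R.ab w).under (𝓞 R.L))) = (R.fr w : G3) • g⁻¹ • z -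
        (g⁻¹ • z) ^ Nat.card (𝓞 R.L ⧸ (R.ab w).under (𝓞 R.L)) := by
      rw [smul_sub, smul_pow', ← mul_smul, ← mul_smul]
      congr 2
      group
    rw [e]
    exact h1
  rw [R.lam_eq (pl R.cub w) (g • R.ab w) hu hI hF]
  exact trQ_conj _ _

end Fermat.Agent.LTG.K.OctaG
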