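import Fermat.Agent.LTG.Top.IfaceL
import Fermat.Agent.LTG.Top.Tower
import Fermat.Agent.LTG.Top.KillOcta
import Fermat.Agent.LTG.Top.BigOcta
import Fermat.Agent.LTG.LevAny
import Fermat.Agent.LTG.PiLOcta
import Fermat.Agent.LTG.Geo.Cons
import Fermat.Agent.LTG.H.UniqL
import Fermat.Agent.LTG.H5.PeriodNe

/-!
# LTG, top level: `Desc_G R` and `LTCoreG` from `DescGeo_G`
(helper24)
-/

set_option autoImplicit false
set_option linter.unusedSectionVars false

open NumberField IsDedekindDomain Matrix Module Pointwise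
open Fermat.LT Fermat.Agent.LT.B Fermat.Agent.LT.D Fermat.Agent.LT.K Fermat.Agent.LT.Top
open Fermat.Agent.LTG Fermat.Agent.LTG.K

namespace Fermat.Agent.LTG.Top

variable (R : OctaG)

/-! ### the places of `L` which ramify in `N` -/

/-- the places of `L` which ramify in `N` -/
noncomputable def SN : Finset (Pl R.L) := (R.finite_bad (H := Q8)).toFinset

theorem mem_SN {w : Pl R.L} : w ∈ SN R ↔ (R.ab w).inertia Q8 ≠ ⊥ := by
  rw [SN, Set.Finite.mem_toFinset]; rfl

theorem SN_pl {w : Pl R.L} : pl R.cub w ∈ SN R ↔ w ∈ SN R := by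
  rw [mem_SN, mem_SN, not_iff_not]
  refine ⟨fun h => ?_, R.inertia_Q8_pl⟩
  have h1 := R.inertia_Q8_pl (R.inertia_Q8_pl h)
  rwa [TwDatum.pl_cube] at h1

theorem levL_pl (M : ℕ) (w : Pl R.L) (g : G2 R.L) :
    R.cub.S g ∈ (LevelT (SN R) M).H (pl R.cub w) ↔ g ∈ (LevelT (SN R) M).H w := by
  by_cases h : w ∈ SN R
  · rw [LevelT_H_of_mem h, LevelT_H_of_mem ((SN_pl R).mpr h), HT_pl]
  · rw [LevelT_H_of_notMem h, LevelT_H_of_notMem (mt (SN_pl R).mp h), stdH_pl]

/-- the bad places fixed by `σ` are totally ramified with residue field `F₄` -/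
theorem SN_fix {v : Pl R.K} {w : Pl R.L} (hv : Above v w) (h : pl R.cub w = w) (hw : w ∈ SN R) :
    Ram R.cub v w ∧ qv v = 4 := by
  rw [mem_SN] at hw
  obtain ⟨-, h1, h2⟩ := (R.inertia_Q8_or_of_fix hv h).resolve_left hw
  exact ⟨h2, h1⟩

/-- the comparison datum of the octahedral tower -/
noncomputable def geo (m : ℕ) (hm : 1 ≤ m) : GeoDat2 R.cub :=
  GeoDat2.mk3 R.cub R.finrank_K R.phi R.phi_K (LevelT (SN R) (3 * m)) (levL_pl R (3 * m)) m hm
    (fun w h => by
      by_cases hw : w ∈ SN R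
      · exact Or.inr ⟨LevelT_H_of_mem hw, fun v hv => SN_fix R hv h hw⟩
      · exact Or.inl (LevelT_n_of_notMem hw))

variable {m : ℕ} (hm : 1 ≤ m)

theorem isLev_geo : IsLev_G R (3 * m) (geo R m hm).DL.toDatum where
  ram w h := by
    have hw := (mem_SN R).mpr h
    exact ⟨LevelT_H_of_mem hw, LevelT_n_of_mem hw⟩
  unr w h := LevelT_n_of_notMem (by rw [mem_SN, not_not]; exact h)

theorem geo_n_of_mem {w : Pl R.L} (h : w ∈ SN R) : (geo R m hm).DL.n w = max (3 * m) 1 :=
  LevelT_n_of_mem h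

theorem geo_n_of_notMem {w : Pl R.L} (h : w ∉ SN R) : (geo R m hm).DL.n w = 0 :=
  LevelT_n_of_notMem h

theorem unr_of_n {w : Pl R.L} (h : (geo R m hm).DL.n w = 0) :
    (R.ab w).inertia Q8 = ⊥ := by
  by_contra hw
  have h1 := geo_n_of_mem R hm ((mem_SN R).mpr hw)
  omega

theorem geo_n_pl (w : Pl R.L) :
    (geo R m hm).DL.n (pl R.cub w) = (geo R m hm).DL.n w := by
  by_cases h : w ∈ SN R
  · rw [geo_n_of_mem R hm h, geo_n_of_mem R hm ((SN_pl R).mpr h)]
  · rw [geo_n_of_notMem R hm h, geo_n_of_notMem R hm (mt (SN_pl R).mp h)]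

open Classical in
theorem geo_n (v : Pl R.K) : (geo R m hm).U.n v =
    if Ram R.cub v ((geo R m hm).up v) then max (max (exists_nr v).choose 1) m
    else if Split R.cub v ((geo R m hm).up v) then (geo R m hm).DL.n ((geo R m hm).up v)
    else if Ram R.cub v ((geo R m hm).up v) ∧ (geo R m hm).DL.n ((geo R m hm).up v) ≠ 0 then
      max m 1 else 0 := rfl

theorem above_up (v : Pl R.K) : Above v ((geo R m hm).up v) := by
  have := (geo R m hm).above ((geo R m hm).up v)
  rwa [(geo R m hm).down_up] at this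

theorem descHyp {φ : X (geo R m hm).DL.toDatum → ℂ}
    (hU : UniqL_G R) (hφ : EForm (geo R m hm).DL.toDatum (fun w => (R.lam w : ℝ)) φ)
    (hs : SType (geo R m hm).DL.toDatum (3 * m) φ) :
    DescHyp_G (geo R m hm) (3 * m) (fun w => (R.lam w : ℝ)) φ where
  zeta := ⟨R.zeta, R.zeta_spec⟩
  lev w := by
    by_cases h : w ∈ SN R
    · right
      refine ⟨LevelT_H_of_mem h, ?_⟩
      by_cases hfix : pl R.cub w = w
      · exact Or.inr (SN_fix R ((geo R m hm).above w) hfix h).1
      · exact Or.inl hfix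
    · left
      exact LevelT_n_of_notMem h
  depth := rfl
  n_pl := geo_n_pl R hm
  n_split v h := by
    rw [geo_n, if_neg (fun h' => h.not_ram h'), if_pos h]
  n_inert v h := by
    rw [geo_n, if_neg (fun h' => h.not_ram h'), if_neg (fun h' => h'.not_inert h),
      if_neg (fun h' => h.not_ram h'.1)]
  n_ram v h := by
    rw [geo_n, if_pos h]
    have := le_max_left (max (exists_nr v).choose 1) m
    have := le_max_right (exists_nr v).choose 1
    omega
  form := hφ
  styp := hs
  uniq lam' φ' h1 h2 h3 := hU (3 * m) R.cub _ (isLev_geo R hm) φ hφ hs lam' φ' h1 h2 h3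
  lam_pl w h := by
    have h1 := R.lam_pl (unr_of_n R hm h)
    exact_mod_cast h1
  lam_ram v h hn := by
    have h1 := R.lam_ram h (unr_of_n R hm hn)
    intro h2
    have h3 : R.lam ((geo R m hm).up v) = 0 := by exact_mod_cast h2
    omega
  kill := killL_octa R R.cub _
  big B := big_octa_G R (geo R m hm) (fun w h => by
      have h1 := geo_n_of_mem R hm ((mem_SN R).mpr h)
      omega)
    (fun w h => R.lam_pl (unr_of_n R hm h)) B

/-! ### compatibility of the eigenvalues -/

theorem geo_n_eq_zero_split {v : Pl R.K} {w : Pl R.L} (hn : (geo R m hm).U.n v = 0)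
    (hw : Above v w) (hq : qv w = qv v) : Split R.cub v ((geo R m hm).up v) := by
  have hup : Above v ((geo R m hm).up v) := above_up R hm v
  rcases (geo R m hm).typ v with h | h | h
  · exact h
  · exfalso
    have h1 : qv w = qv ((geo R m hm).up v) := by
      rcases Fermat.LT.above_cases R.cub hup hw with h2 | h2 | h2 <;> rw [h2]
      · rw [qv_pl]
      · rw [qv_pl, qv_pl]
    have h2 := h.q_eq
    rw [← h1, hq] at h2
    have h3 := one_lt_qv v
    nlinarith [mul_pos (sub_pos.mpr h3) (qv_pos v), pow_pos (qv_pos v) 2]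
  · exfalso
    rw [geo_n, if_pos h] at hn
    have := le_max_left (max (exists_nr v).choose 1) m
    have := le_max_right (exists_nr v).choose 1
    omega

theorem compat_of {lamK : Pl R.K → ℝ}
    (h : ∀ v, Split R.cub v ((geo R m hm).up v) → (geo R m hm).DL.n ((geo R m hm).up v) = 0 →
      lamK v = R.lam ((geo R m hm).up v)) : Compat_G R (geo R m hm).DK lamK := by
  intro v w hn hw hq
  have hn' : (geo R m hm).U.n v = 0 := hn
  have hs := geo_n_eq_zero_split R hm hn' hw hq
  have hnL : (geo R m hm).DL.n ((geo R m hm).up v) = 0 := by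
    rw [geo_n, if_neg (fun h' => hs.not_ram h'), if_pos hs] at hn'
    exact hn'
  rw [h v hs hnL]
  have hup : Above v ((geo R m hm).up v) := above_up R hm v
  have e1 := unr_of_n R hm hnL
  have e2 := R.inertia_Q8_pl e1
  have h1 : R.lam w = R.lam ((geo R m hm).up v) := by
    rcases Fermat.LT.above_cases R.cub hup hw with h2 | h2 | h2 <;> rw [h2]
    · exact R.lam_pl e1
    · rw [R.lam_pl e2, R.lam_pl e1]
  rw [h1]

/-- **Wiring**: the form on `K` from the pieces G, I, H. -/
theorem desc_of_G (hG : DescGeo_G) (hP : PiL_G R) (hU : UniqL_G R) : Desc_G R := by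
  obtain ⟨m, hm, hM⟩ := hP
  obtain ⟨φ, hφ, hs⟩ := hM _ (isLev_geo R hm)
  obtain ⟨lamK, Φ, hΦ, hsplit⟩ :=
    hG R.K R.L R.cub (geo R m hm) (3 * m) _ φ (descHyp R hm hU hφ hs)
  obtain ⟨M', hM', h1⟩ := exists_levelDvd (geo R m hm).DK
  exact ⟨(geo R m hm).DK, M', lamK, Φ, hM', h1, hΦ, compat_of R hm hsplit⟩

end Fermat.Agent.LTG.Top

namespace Fermat.Agent.LTG

/-- **`LTCoreG` from the comparison of trace formulas.** -/
theorem ltCoreG_of_descGeo (hG : DescGeo_G) : LTCoreG :=
  ltCoreG_of (fun R => Top.desc_of_G R hG (piL_G R) (LT.H.uniqL_G R)) LT.H5.thetaJ_G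

end Fermat.Agent.LTG
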