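import Fermat.Agent.LTG.Top.Iface

/-!
# LTG: `LTCoreG` from `Desc_G` and `ThetaJ_G`: see `LTG/Top/Iface.lean`

(`exists_finset_cen`, `ltCoreG_of`; this file only re-exports them.)
-/
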